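import Fermat.Agent.NeverTwo.Parameters
import Fermat.Agent.Interpolation.Amalgam

/-!
# Countable models

A theory with countably many types has a countable atomic model; each countable model extends to
one in which all tuples of a type have all the extensions wanted.
-/

set_option autoImplicit false

universe u v w

namespace FA.NeverTwo

open FirstOrder Language OmittingTypes Interpolation Cardinal

variable {L : Language.{u, v}} {T : L.Theory}

/-- An isomorphism keeps types. -/
theorem typeOf_equiv_comp {M N : Type w} [L.Structure M] [L.Structure N] [Nonempty M] [Nonempty N]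
    [M ⊨ T] [N ⊨ T] (e : M ≃[L] N) {α : Type*} (v : α → M) :
    T.typeOf (e ∘ v) = T.typeOf v :=
  type_ext fun φ => by
    rw [hasFormula_typeOf, hasFormula_typeOf]
    exact StrongHomClass.realize_formula e φ

/-- An elementary embedding keeps types. -/
theorem typeOf_elementary_comp {M N : Type w} [L.Structure M] [L.Structure N] [Nonempty M]
    [Nonempty N] [M ⊨ T] [N ⊨ T] (e : M ↪ₑ[L] N) {α : Type*} (v : α → M) :
    T.typeOf (e ∘ v) = T.typeOf v :=
  type_ext fun φ => by rw [hasFormula_typeOf, hasFormula_typeOf, e.map_formula]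

/-- A theory with countably many types has a countable atomic model. -/
theorem exists_atomic [Countable L.Symbols] (hT : T.IsSatisfiable)
    (hs : ∀ k, Countable (T.CompleteType (Fin k))) :
    ∃ M : Theory.ModelType.{u, v, max u v} T, Countable M ∧ IsAtomicModel T M := by
  obtain ⟨M, hM, h⟩ := exists_countable_omitting hT
    (ι := Σ k, {q : T.CompleteType (Fin k) // ¬IsIsolated q}) (n := fun i => i.1)
    (fun i => i.2.1) fun i => i.2.2
  exact ⟨M, hM, fun k v => by_contra fun hn => h ⟨k, _, hn⟩ v rfl⟩

/-- A countable submodel around countably many points. -/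
theorem exists_countable_around [Countable L.Symbols] (N : Theory.ModelType.{u, v, max u v} T)
    [Infinite N] {s : Set N} (hs : s.Countable) :
    ∃ E : L.ElementarySubstructure N, s ⊆ E ∧ Countable E := by
  obtain ⟨E, hE, hcard⟩ := exists_elementarySubstructure_card_eq L s (ℵ₀ : Cardinal.{max u v})
    le_rfl (by simpa using hs.le_aleph0)
    (by simpa [Language.card] using mk_le_aleph0 (α := L.Symbols)) (by simp)
  exact ⟨E, hE, mk_le_aleph0_iff.1 (by simpa using hcard.le)⟩

/-- Every type is realised in a countable model. -/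
theorem exists_countable_realizing [Countable L.Symbols] (hT : T.IsComplete)
    (M₀ : Theory.ModelType.{u, v, max u v} T) [Infinite M₀] {k : ℕ}
    (r : T.CompleteType (Fin k)) :
    ∃ M : Theory.ModelType.{u, v, max u v} T, Countable M ∧ ∃ x : Fin k → M, T.typeOf x = r := by
  obtain ⟨N, v, rfl⟩ := exists_realization r
  have : Infinite N := infinite_of_isComplete hT M₀ N
  obtain ⟨E, hE, hc⟩ := exists_countable_around N (Set.countable_range v)
  refine ⟨Theory.ModelType.of T E, hc, fun i => ⟨v i, hE (Set.mem_range_self i)⟩, ?_⟩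
  exact (typeOf_elementary_comp E.subtype _).symm

variable {n m : ℕ}

/-- One step: the tuples of type `p` get extensions of type `r`. -/
theorem exists_step_extending [Countable L.Symbols] (hT : T.IsComplete)
    (M₀ : Theory.ModelType.{u, v, max u v} T) [Infinite M₀] {p : T.CompleteType (Fin n)}
    {r : T.CompleteType (Fin (n + m))}
    (hpr : ∀ φ : L.Formula (Fin n), HasFormula p φ ↔ HasFormula r (φ.relabel (Fin.castAdd m)))
    (A : Theory.ModelType.{u, v, max u v} T) [Countable A] :
    ∃ (A' : Theory.ModelType.{u, v, max u v} T) (_ : Countable A') (e : A ↪ₑ[L] A'),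
      ∀ c : Fin n → A, T.typeOf c = p →
        ∃ d : Fin m → A', T.typeOf (Fin.append (e ∘ c) d) = r := by
  classical
  let I := {c : Fin n → A // T.typeOf c = p}
  let var' : I → Fin (n + m) → A ⊕ (I × Fin m) := fun i =>
    Fin.append (fun k => Sum.inl (i.1 k)) fun j => Sum.inr (i, j)
  obtain ⟨K, x, hx⟩ := exists_realize T
    ({φ : L.Formula (A ⊕ (I × Fin m)) | ∃ (k : ℕ) (ψ : L.Formula (Fin k)) (a : Fin k → A),
      ψ.Realize a ∧ ψ.relabel (Sum.inl ∘ a) = φ} ∪
    {φ : L.Formula (A ⊕ (I × Fin m)) | ∃ (i : I) (χ : L.Formula (Fin (n + m))),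
      HasFormula r χ ∧ χ.relabel (var' i) = φ}) fun s hs => by
    let t := s.filter fun φ => ∃ (i : I) (χ : L.Formula (Fin (n + m))),
      HasFormula r χ ∧ χ.relabel (var' i) = φ
    have ht : ∀ φ : t, ∃ (i : I) (χ : L.Formula (Fin (n + m))),
      HasFormula r χ ∧ χ.relabel (var' i) = φ.1 := fun φ => (Finset.mem_filter.1 φ.2).2
    choose i χ hχ hφ using ht
    have hwit : ∀ c : I, ∃ y : Fin m → A,
        ∀ φ : t, i φ = c → (χ φ).Realize (Fin.append c.1 y) := by
      intro c
      let Ψ : L.Formula (Fin (n + m)) := Formula.iInf fun φ : {φ : t // i φ = c} => χ φ.1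
      let θ : L.Formula (Fin n) := (Ψ.relabel finSumFinEquiv.symm).iExs (Fin m)
      obtain ⟨N, z, hz⟩ := exists_realization r
      have hΨ : Ψ.Realize z := by
        refine Formula.realize_iInf.2 fun φ => (hasFormula_typeOf (T := T) z _).1 ?_
        rw [hz]
        exact hχ φ.1
      have hθr : HasFormula r (θ.relabel (Fin.castAdd m)) := by
        rw [← hz, hasFormula_typeOf, Formula.realize_relabel, Formula.realize_iExs]
        refine ⟨fun j => z (Fin.natAdd n j), Formula.realize_relabel.2 ?_⟩
        convert hΨ using 1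
        funext k
        induction k using Fin.addCases <;> simp
      have hθ : θ.Realize c.1 := by
        rw [← hasFormula_typeOf (T := T), c.2, hpr]
        exact hθr
      obtain ⟨y, hy⟩ := Formula.realize_iExs.1 hθ
      refine ⟨y, fun φ hφc => ?_⟩
      have h' := Formula.realize_iInf.1 (Formula.realize_relabel.1 hy) ⟨φ, hφc⟩
      convert h' using 1
      funext k
      induction k using Fin.addCases <;> simp
    choose y hy using hwit
    refine ⟨A, Sum.elim id fun c => y c.1 c.2, fun φ hφs => ?_⟩
    rcases hs hφs with ⟨k, ψ, a, ha, rfl⟩ | h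
    · exact Formula.realize_relabel.2 ha
    · have hm : φ ∈ t := Finset.mem_filter.2 ⟨hφs, h⟩
      have e1 : (χ ⟨φ, hm⟩).relabel (var' (i ⟨φ, hm⟩)) = φ := hφ ⟨φ, hm⟩
      rw [← e1, Formula.realize_relabel]
      convert hy (i ⟨φ, hm⟩) ⟨φ, hm⟩ rfl using 1
      funext k
      induction k using Fin.addCases <;> simp [var']
  have : Infinite K := infinite_of_isComplete hT M₀ K
  have : Countable I := inferInstance
  obtain ⟨E, hE, hc⟩ := exists_countable_around K (Set.countable_range x)
  let x' : A ⊕ (I × Fin m) → E := fun a => ⟨x a, hE (Set.mem_range_self a)⟩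
  have hx' : ∀ φ : L.Formula (A ⊕ (I × Fin m)), φ.Realize x → φ.Realize x' := fun φ hφ =>
    (E.subtype.map_formula φ x').1 hφ
  have he : ∀ (k : ℕ) (ψ : L.Formula (Fin k)) (a : Fin k → A),
      ψ.Realize ((x' ∘ Sum.inl) ∘ a) ↔ ψ.Realize a := by
    intro k ψ a
    refine ⟨fun h => ?_, fun h => ?_⟩
    · by_contra hn
      have := Formula.realize_relabel.1 (hx' _ (hx _ (.inl ⟨k, ψ.not, a, hn, rfl⟩)))
      exact this h
    · have := Formula.realize_relabel.1 (hx' _ (hx _ (.inl ⟨k, ψ, a, h, rfl⟩)))
      exact this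
  refine ⟨Theory.ModelType.of T E, hc, ⟨x' ∘ Sum.inl, he⟩, fun c hc' =>
    ⟨fun j => x' (Sum.inr (⟨c, hc'⟩, j)), ?_⟩⟩
  have hone : ∀ χ, HasFormula r χ → χ.Realize (x' ∘ var' ⟨c, hc'⟩) := fun χ hχ =>
    Formula.realize_relabel.1 (hx' _ (hx _ (.inr ⟨⟨c, hc'⟩, χ, hχ, rfl⟩)))
  have e : x' ∘ var' ⟨c, hc'⟩ =
      Fin.append (x' ∘ Sum.inl ∘ c) fun j => x' (Sum.inr (⟨c, hc'⟩, j)) := funext fun k => by
    induction k using Fin.addCases <;> simp [var']
  rw [e] at hone
  refine type_ext fun φ => ⟨fun h => ?_, fun h => ?_⟩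
  · by_contra hn
    exact (hone φ.not ((hasFormula_not _ φ).2 hn)) ((hasFormula_typeOf _ _).1 h)
  · exact (hasFormula_typeOf _ _).2 (hone φ h)

/-- A countable model in which every tuple of type `p` has an extension of type `r`. -/
theorem exists_extending [Countable L.Symbols] (hT : T.IsComplete)
    (M₀ : Theory.ModelType.{u, v, max u v} T) [Infinite M₀] {p : T.CompleteType (Fin n)}
    {r : T.CompleteType (Fin (n + m))}
    (hpr : ∀ φ : L.Formula (Fin n), HasFormula p φ ↔ HasFormula r (φ.relabel (Fin.castAdd m)))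
    (A : Theory.ModelType.{u, v, max u v} T) [Countable A] :
    ∃ (C : Theory.ModelType.{u, v, max u v} T) (_ : Countable C) (_ : A ↪ₑ[L] C),
      ∀ c : Fin n → C, T.typeOf c = p →
        ∃ d : Fin m → C, T.typeOf (Fin.append c d) = r := by
  classical
  let S := {M : Theory.ModelType.{u, v, max u v} T // Countable M}
  have hstep : ∀ s : S, ∃ (t : S) (e : s.1 ↪ₑ[L] t.1), ∀ c : Fin n → s.1, T.typeOf c = p →
      ∃ d : Fin m → t.1, T.typeOf (Fin.append (e ∘ c) d) = r := fun s => by
    have := s.2
    obtain ⟨A', hA', e, he⟩ := exists_step_extending hT M₀ hpr s.1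
    exact ⟨⟨A', hA'⟩, e, he⟩
  choose next e he using hstep
  let st : ℕ → S := fun k => Nat.rec ⟨A, inferInstance⟩ (fun _ s => next s) k
  let f : ∀ k, (st k).1 ↪ₑ[L] (st (k + 1)).1 := fun k => e (st k)
  have : ∀ k, Countable (st k).1 := fun k => (st k).2
  have : Countable (ChainLimit f) :=
    Function.Surjective.countable (f := fun c : Σ k, (st k).1 => toLimit f c.1 c.2) fun z =>
      let ⟨k, a, h⟩ := exists_toLimit f z
      ⟨⟨k, a⟩, h⟩
  have : Nonempty (ChainLimit f) := (inferInstance : Nonempty A).map (toLimit f 0)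
  have : ChainLimit f ⊨ T := ((toLimitElementary f 0).theory_model_iff T).1 A.is_model
  refine ⟨Theory.ModelType.of T (ChainLimit f), ‹Countable (ChainLimit f)›, toLimitElementary f 0,
    fun c hc => ?_⟩
  choose k a ha using fun j => exists_toLimit f (c j)
  let M := Finset.univ.sup k
  have hk : ∀ j, k j ≤ M := fun j => Finset.le_sup (Finset.mem_univ j)
  let c' : Fin n → (st M).1 := fun j => chainMap f (k j) M (hk j) (a j)
  have ec : toLimitElementary f M ∘ c' = c :=
    funext fun j => (Language.DirectLimit.of_f).trans (ha j)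
  obtain ⟨d, hd⟩ := he (st M) c' ((typeOf_elementary_comp (toLimitElementary f M) c').symm.trans
    (by rw [ec]; exact hc))
  refine ⟨toLimitElementary f (M + 1) ∘ d, ?_⟩
  rw [← hd, ← typeOf_elementary_comp (toLimitElementary f (M + 1)) (Fin.append (f M ∘ c') d)]
  congr 1
  funext j
  induction j using Fin.addCases with
  | left i =>
    simp only [Fin.append_left, Function.comp_apply]
    exact (congrFun ec i).symm.trans (toLimit_succ f M (c' i)).symm
  | right i =>
    exact (Fin.append_right _ _ i).trans
      (congrArg (toLimitElementary f (M + 1)) (Fin.append_right _ _ i).symm)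

end FA.NeverTwo
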