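import Fermat.Agent.OmittingTypes.RyllNardzewski
import Mathlib.Data.Fin.Tuple.Basic

/-!
# Types over a tuple

A type is a complete theory in the language with constants for its variables; the types of that
theory are the types which extend it.
-/

set_option autoImplicit false

universe u v w

namespace FA.NeverTwo

open FirstOrder Language OmittingTypes

variable {L : Language.{u, v}} {T : L.Theory} {n m : ℕ}

/-- The theory of a tuple of a type. -/
abbrev paramTheory (p : T.CompleteType (Fin n)) : L[[Fin n]].Theory :=
  (p : L[[Fin n]].Theory)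

theorem isComplete_paramTheory (p : T.CompleteType (Fin n)) : (paramTheory p).IsComplete :=
  p.isMaximal.isComplete

/-- The tuple of the constants. -/
def constTuple (K : Type w) [L[[Fin n]].Structure K] : Fin n → K :=
  fun i => (L.con i : K)

/-- The reduct of a model over a tuple is a model. -/
theorem model_reduct {p : T.CompleteType (Fin n)} (K : Type w) [L.Structure K]
    [L[[Fin n]].Structure K] [(L.lhomWithConstants (Fin n)).IsExpansionOn K]
    [hK : K ⊨ paramTheory p] : K ⊨ T :=
  (LHom.onTheory_model (L.lhomWithConstants (Fin n)) T).1 (hK.mono p.subset)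

/-- The constants have the type. -/
theorem typeOf_constTuple {p : T.CompleteType (Fin n)} (K : Type w) [L.Structure K]
    [L[[Fin n]].Structure K] [(L.lhomWithConstants (Fin n)).IsExpansionOn K] [Nonempty K]
    [K ⊨ T] [K ⊨ paramTheory p] : T.typeOf (constTuple (L := L) (n := n) K) = p := by
  refine type_ext fun φ => ?_
  rw [hasFormula_typeOf]
  exact (Formula.realize_equivSentence K φ).symm.trans
    (((isComplete_paramTheory p).realize_sentence_iff _ K).trans
      (p.isMaximal.mem_iff_models _).symm)

/-- A formula over the tuple. -/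
def paramFormula (φ : L.Formula (Fin (n + m))) : L[[Fin n]].Formula (Fin m) :=
  BoundedFormula.constantsVarsEquiv.symm (φ.relabel finSumFinEquiv.symm)

theorem realize_paramFormula (K : Type w) [L.Structure K] [L[[Fin n]].Structure K]
    [(L.lhomWithConstants (Fin n)).IsExpansionOn K] (φ : L.Formula (Fin (n + m))) (v : Fin m → K) :
    (paramFormula φ).Realize v ↔ φ.Realize (Fin.append (constTuple (L := L) (n := n) K) v) := by
  rw [Formula.Realize, ← BoundedFormula.realize_constantsVarsEquiv, paramFormula,
    Equiv.apply_symm_apply, ← Formula.Realize, Formula.realize_relabel]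
  refine iff_of_eq (congrArg _ (funext fun i => ?_))
  induction i using Fin.addCases <;> simp [constTuple]

/-- Every formula over the tuple is one of these. -/
theorem exists_paramFormula (p : T.CompleteType (Fin n)) (ψ : L[[Fin n]].Formula (Fin m)) :
    ∃ φ : L.Formula (Fin (n + m)), ∀ q : (paramTheory p).CompleteType (Fin m),
      HasFormula q ψ ↔ HasFormula q (paramFormula φ) := by
  refine ⟨Formula.relabel finSumFinEquiv (BoundedFormula.constantsVarsEquiv ψ), fun q => ?_⟩
  obtain ⟨K, v, rfl⟩ := exists_realization q
  let : L.Structure K := (L.lhomWithConstants (Fin n)).reduct K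
  rw [hasFormula_typeOf, hasFormula_typeOf, realize_paramFormula, Formula.realize_relabel,
    Formula.Realize, ← BoundedFormula.realize_constantsVarsEquiv]
  exact iff_of_eq (congrArg₂ _ (funext fun i => by rcases i with i | i <;> simp [constTuple]) rfl)

/-- The type `r` extends `p` as `q` does. -/
def IsLift {p : T.CompleteType (Fin n)} (q : (paramTheory p).CompleteType (Fin m))
    (r : T.CompleteType (Fin (n + m))) : Prop :=
  ∀ φ, HasFormula r φ ↔ HasFormula q (paramFormula φ)

theorem isLift_typeOf {p : T.CompleteType (Fin n)} (K : Type w) [L.Structure K]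
    [L[[Fin n]].Structure K] [(L.lhomWithConstants (Fin n)).IsExpansionOn K] [Nonempty K]
    [K ⊨ T] [K ⊨ paramTheory p] (v : Fin m → K) :
    IsLift ((paramTheory p).typeOf v) (T.typeOf (Fin.append (constTuple (L := L) (n := n) K) v)) :=
  fun φ => by rw [hasFormula_typeOf, hasFormula_typeOf, realize_paramFormula]

theorem exists_lift {p : T.CompleteType (Fin n)} (q : (paramTheory p).CompleteType (Fin m)) :
    ∃ r : T.CompleteType (Fin (n + m)), IsLift q r := by
  obtain ⟨K, v, rfl⟩ := exists_realization q
  let : L.Structure K := (L.lhomWithConstants (Fin n)).reduct K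
  have : K ⊨ T := model_reduct (p := p) K
  exact ⟨_, isLift_typeOf (T := T) K v⟩

theorem IsLift.unique {p : T.CompleteType (Fin n)} {q q' : (paramTheory p).CompleteType (Fin m)}
    {r : T.CompleteType (Fin (n + m))} (h : IsLift q r) (h' : IsLift q' r) : q = q' :=
  type_ext fun ψ => by
    obtain ⟨φ, hφ⟩ := exists_paramFormula p ψ
    rw [hφ, hφ, ← h, ← h']

/-- The lifted type extends the type of the tuple. -/
theorem IsLift.restrict {p : T.CompleteType (Fin n)} {q : (paramTheory p).CompleteType (Fin m)}
    {r : T.CompleteType (Fin (n + m))} (h : IsLift q r) (φ : L.Formula (Fin n)) :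
    HasFormula p φ ↔ HasFormula r (φ.relabel (Fin.castAdd m)) := by
  rw [h]
  obtain ⟨K, v, rfl⟩ := exists_realization q
  let : L.Structure K := (L.lhomWithConstants (Fin n)).reduct K
  have : K ⊨ T := model_reduct (p := p) K
  rw [hasFormula_typeOf, realize_paramFormula, Formula.realize_relabel]
  conv_lhs => rw [← typeOf_constTuple (p := p) K, hasFormula_typeOf]
  exact iff_of_eq (congrArg _ (funext fun i => by simp))

/-- There are no more types over the tuple than types. -/
theorem countable_paramType (hs : ∀ k, Countable (T.CompleteType (Fin k)))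
    (p : T.CompleteType (Fin n)) (k : ℕ) :
    Countable ((paramTheory p).CompleteType (Fin k)) := by
  choose f hf using fun q : (paramTheory p).CompleteType (Fin k) => exists_lift q
  have := hs (n + k)
  exact Function.Injective.countable (f := f) fun q q' h => (hf q).unique (h ▸ hf q')

/-- Constants keep the types infinite. -/
theorem finite_of_finite_paramType (hT : T.IsComplete) (p : T.CompleteType (Fin n))
    (h : Finite ((paramTheory p).CompleteType (Fin m))) : Finite (T.CompleteType (Fin m)) := by
  classical
  obtain ⟨S, hS⟩ := finite_iff_exists_finset.1 h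
  refine finite_iff_exists_finset.2 ⟨S.image fun ψ =>
    if hψ : ∃ φ : L.Formula (Fin m), (L.lhomWithConstants (Fin n)).onFormula φ ⇔[paramTheory p] ψ
    then hψ.choose else ⊥, fun φ => ?_⟩
  obtain ⟨ψ, hψ, he⟩ := hS ((L.lhomWithConstants (Fin n)).onFormula φ)
  have hex : ∃ φ₀ : L.Formula (Fin m),
      (L.lhomWithConstants (Fin n)).onFormula φ₀ ⇔[paramTheory p] ψ := ⟨φ, he⟩
  refine ⟨hex.choose, Finset.mem_image.2 ⟨ψ, hψ, dif_pos hex⟩, ?_⟩
  refine Theory.models_formula_iff.2 fun M x => ?_
  obtain ⟨K⟩ := (isComplete_paramTheory p).1
  let : L.Structure K := (L.lhomWithConstants (Fin n)).reduct K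
  have : K ⊨ T := model_reduct (p := p) K
  let σ : L.Sentence :=
    Formula.iAlls (Fin m) (Formula.relabel Sum.inr (Formula.iff φ hex.choose))
  have hK : K ⊨ σ := by
    simp only [σ, Sentence.Realize, Formula.realize_iAlls, Formula.realize_relabel,
      Sum.elim_comp_inr, Formula.realize_iff]
    intro y
    rw [← LHom.realize_onFormula (L.lhomWithConstants (Fin n)),
      ← LHom.realize_onFormula (L.lhomWithConstants (Fin n)) hex.choose]
    exact (he.trans hex.choose_spec.symm).realize_iff
  have hM : M ⊨ σ := (hT.realize_sentence_iff σ M).2 ((hT.realize_sentence_iff σ K).1 hK)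
  simp only [σ, Sentence.Realize, Formula.realize_iAlls, Formula.realize_relabel,
    Sum.elim_comp_inr] at hM
  exact hM x

end FA.NeverTwo
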